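import Fermat.Agent.S38.H483.CtrlGen
import Fermat.Agent.S38T.IA.Hecke.Spec3

/-!
# Row S59, cell LO-IA (B2), HECKE-T: the leaf IA-CTRL for every odd `p` and every type at `p`
(helper299)

`iaCtrl_T_of_free299 : IAFreeStatement_T → IACtrlStatement_T`, VERBATIM against helper3's frozen
`S38T/IA/Hecke/Spec3.lean`.

Proof: helper483's generic core `ctrl_core483` (COR + NAT + the Taylor–Wiles chain of helper105,
any base level, any type, every `p`) at the base level `N₀ = wilesLevel p ty Smin Smin` and Ribet's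
level `L = ribetLevelT p ty Smin Piv`; the data at the Taylor–Wiles primes are `tw_data483`, the
comparison of the two eigen-systems is `tsetOf_eq_tsetAway483`.  Neither `3 ≤ p` nor the type
hypothesis is used.
-/

set_option autoImplicit false
set_option linter.unusedSectionVars false
set_option linter.style.haveILetI false

open Polynomial IsLocalRing CongruenceSubgroup
open scoped MatrixGroups

namespace Fermat.Agent.S38.H299

open Fermat.Agent.S59.Arch Fermat.Agent.S59.TW.H959 Fermat.Agent.S59.TW Fermat.Agent.S59.H765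
open Fermat.Agent.S59.TW.H653 Fermat.Agent.S59.TW.Aut Fermat.Agent.S59.H105
open Fermat.Agent.S38.IA Fermat.Agent.S38.IA.Hecke Fermat.Agent.S38.H483
open CuspForm

/-! ## The levels -/

section Level

variable (p : ℕ) (ty : PType) (Smin : Finset ℕ)

theorem pFac_dvd_T299 : pFac p ty ∣ p := by
  cases ty
  · exact one_dvd p
  · exact dvd_rfl
  · exact dvd_rfl

theorem pFac_ne_zero_T299 (hp : p ≠ 0) : pFac p ty ≠ 0 := by
  cases ty
  · exact one_ne_zero
  · exact hp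
  · exact hp

theorem wilesLevel_self_T299 :
    wilesLevel p ty Smin Smin = (∏ q ∈ Smin.erase p, q) * pFac p ty := by
  rw [wilesLevel_eq_mul_pFac]
  unfold wilesLevel
  rw [Finset.sdiff_self, Finset.prod_empty, mul_one, mul_one]

theorem wilesLevel_self_ne_zero_T299 (hp : p ≠ 0) (hSmin : ∀ q ∈ Smin, q.Prime) :
    wilesLevel p ty Smin Smin ≠ 0 := by
  rw [wilesLevel_self_T299]
  refine Nat.mul_ne_zero (Finset.prod_ne_zero_iff.mpr fun q hq => ?_) (pFac_ne_zero_T299 p ty hp)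
  exact (hSmin q (Finset.mem_of_mem_erase hq)).ne_zero

/-- The Betti level is `L ∏ qv`, `L = ribetLevelT`. -/
theorem gLevel_eq_T299 {Piv : Finset ℕ} {k r : ℕ} (pv : Fin k → ℕ) (qv : Fin r → ℕ)
    (hpv : Function.Injective pv) (hpvPiv : Finset.univ.image pv = Piv) :
    gLevel (wilesLevel p ty Smin Smin) (Sum.elim pv qv) =
      ribetLevelT p ty Smin Piv * ∏ j, qv j := by
  rw [ribetLevelT_eq, wilesLevel_self_T299]
  unfold gLevel ribetLevel
  rw [Fintype.prod_sum_type, ← hpvPiv, Finset.prod_image (fun a _ b _ h => hpv h)]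
  simp only [Sum.elim_inl, Sum.elim_inr]
  ring

/-- A prime dividing `ribetLevelT` lies in `Smin ∪ Piv`. -/
theorem mem_of_dvd_ribetLevelT299 {Piv : Finset ℕ} (hpS : p ∈ Smin)
    (hSmin : ∀ q ∈ Smin, q.Prime) (hPiv : ∀ q ∈ Piv, q.Prime) (hpp : p.Prime)
    {ℓ : ℕ} (hℓ : ℓ.Prime) (h : ℓ ∣ ribetLevelT p ty Smin Piv) : ℓ ∈ Smin ∪ Piv := by
  rw [ribetLevelT_eq] at h
  rcases (Nat.Prime.dvd_mul hℓ).mp h with h | h
  · unfold ribetLevel at h
    rcases (Nat.Prime.dvd_mul hℓ).mp h with h | h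
    · obtain ⟨q, hq, hdvd⟩ := (Prime.dvd_finsetProd_iff hℓ.prime _).mp h
      have hqS : q ∈ Smin := Finset.mem_of_mem_erase hq
      have : ℓ = q := (Nat.prime_dvd_prime_iff_eq hℓ (hSmin q hqS)).mp hdvd
      exact Finset.mem_union_left _ (this ▸ hqS)
    · obtain ⟨q, hq, hdvd⟩ := (Prime.dvd_finsetProd_iff hℓ.prime _).mp h
      have : ℓ = q := (Nat.prime_dvd_prime_iff_eq hℓ (hPiv q hq)).mp hdvd
      exact Finset.mem_union_right _ (this ▸ hq)
  · have : ℓ = p := (Nat.prime_dvd_prime_iff_eq hℓ hpp).mp (h.trans (pFac_dvd_T299 p ty))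
    exact Finset.mem_union_left _ (this ▸ hpS)

end Level

/-! ## The leaf -/

/-- **IA-CTRL for every odd `p` and every type at `p`**, given IA-FREE. -/
theorem iaCtrl_T_of_free299 (hfree : IAFreeStatement_T) : IACtrlStatement_T := by
  intro p hpF _hp3 𝒪 _ _ _ _ _ _ ρbar Smin h ty hty Piv hPiv hL θ₀ hθ₀ k pv hpv hpvPiv n r qv hq _
    hp PQ hθ α hα V₀ V hV₀ hV
  classical
  have hpp : p.Prime := hpF.out
  have hPivP : ∀ q ∈ Piv, q.Prime := fun q hq' => (hPiv q hq').1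
  have hpvmem : ∀ i, pv i ∈ Piv := fun i => by
    rw [← hpvPiv]
    exact Finset.mem_image_of_mem pv (Finset.mem_univ i)
  have hpvP : ∀ i, (pv i).Prime := fun i => hPivP (pv i) (hpvmem i)
  have hqvP : ∀ j, (qv j).Prime := fun j => (hq.2.1 j).1
  have hqvS : ∀ j, qv j ∉ (↑(Smin ∪ Piv) : Set ℕ) := fun j => by
    rw [Finset.mem_coe]
    exact (hq.2.1 j).2.1
  have hdisj : ∀ i j, pv i ≠ qv j := fun i j hij =>
    hqvS j (Finset.mem_coe.mpr (Finset.mem_union_right _ (hij ▸ hpvmem i)))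
  have hLS : ∀ ℓ : ℕ, ℓ.Prime → ℓ ∣ ribetLevelT p ty Smin Piv → ℓ ∈ (↑(Smin ∪ Piv) : Set ℕ) :=
    fun ℓ hℓ hd => Finset.mem_coe.mpr
      (mem_of_dvd_ribetLevelT299 p ty Smin h.hpSmin h.hSmin hPivP hpp hℓ hd)
  have hqvL : ∀ j, ¬ qv j ∣ ribetLevelT p ty Smin Piv := fun j hdvd =>
    hqvS j (hLS (qv j) (hqvP j) hdvd)
  have hqk : ∀ j, ((qv j : ℕ) : ResidueField 𝒪) = 1 := fun j =>
    natCast_residue_eq_one483 h.hp𝒪 (hqvP j).pos (hq.2.1 j).2.2
  haveI hN₀ : NeZero (wilesLevel p ty Smin Smin) :=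
    ⟨wilesLevel_self_ne_zero_T299 p ty Smin hpp.ne_zero h.hSmin⟩
  have hML := gLevel_eq_T299 p ty Smin pv qv hpv hpvPiv
  -- the data at the Taylor–Wiles primes
  obtain ⟨β, c, hc, hsum, hprod, hαβ, hα2, hβ2, hqu⟩ :=
    tw_data483 θ₀ hθ₀ qv α hα hqvP hqvL hqvS hqk
  have hT₀ : ∀ x ∈ TsetOfθ θ₀, x.1.Prime ∧ ¬ x.1 ∣ ribetLevelT p ty Smin Piv := by
    rintro x ⟨hℓ, hℓN, -, -⟩
    exact ⟨hℓ, hℓN⟩
  have hcT : ∀ j, (qv j, c j) ∈ TsetOfθ θ₀ := fun j => ⟨hqvP j, hqvL j, hqvS j, hc j⟩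
  have hcq : ∀ j c', (qv j, c') ∈ TsetOfθ θ₀ → c' - c j ∈ maximalIdeal 𝒪 := by
    rintro j c' ⟨h1, h2, h3, h4⟩
    rw [← residue_eq_zero_iff, map_sub, h4, hc j, sub_self]
  -- the two eigen-systems at the top level agree
  have hTset : TsetOf PQ = TsetAway (TsetOfθ θ₀) qv :=
    tsetOf_eq_tsetAway483 (S₀ := Smin ∪ Piv) qv PQ θ₀ hLS hp hθ
  have hT : ∀ x ∈ TsetOf PQ,
      x.1.Prime ∧ ¬ x.1 ∣ gLevel (wilesLevel p ty Smin Smin) (Sum.elim pv qv) := by
    rintro x ⟨hℓ, -, hℓS, -⟩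
    refine ⟨hℓ, fun hd => hℓS ?_⟩
    rw [hML] at hd
    rw [Finset.mem_coe]
    rcases (Nat.Prime.dvd_mul hℓ).mp hd with hd | hd
    · exact Finset.mem_union_left _ (Finset.mem_coe.mp (hLS x.1 hℓ hd))
    · obtain ⟨j, -, hj⟩ := (Prime.dvd_finsetProd_iff hℓ.prime _).mp hd
      rw [(Nat.prime_dvd_prime_iff_eq hℓ (hqvP j)).mp hj]
      exact Finset.mem_union_right _ (Finset.mem_image_of_mem qv (Finset.mem_univ j))
  -- freeness
  obtain ⟨d, hd⟩ := hfree p _hp3 𝒪 ρbar Smin h ty hty Piv hPiv k pv hpv hpvPiv n r qv hq PQ α hα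
    V hV
  exact ctrl_core483 (wilesLevel p ty Smin Smin) pv qv hpvP hqvP hpv hq.1 hdisj
    (ribetLevelT p ty Smin Piv) (NeZero.ne _) hML hT₀ hV₀ α β c hqvL hqu hcT hcq hsum hprod
    hαβ hα2 hβ2 hTset hT hV ⟨d, hd⟩

end Fermat.Agent.S38.H299
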