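import Fermat.Agent.S38T.H299.IACtrlT
import Fermat.Agent.S38T.H681.LeavesT

/-!
# Row S59, cell LO-IA (B2), HECKE-T: the leaf IA-CTRL, closed (helper299)

`iaCtrl_T299 : IACtrlStatement_T`, VERBATIM (`S38T/IA/Hecke/Spec3.lean`), unconditional:
`iaCtrl_T_of_free299` applied to IA-FREE-T (helper681 `iaFree_T_h681`).
-/

set_option autoImplicit false

namespace Fermat.Agent.S38.H299

open Fermat.Agent.S38.IA.Hecke

/-- **IA-CTRL-T.** -/
theorem iaCtrl_T299 : IACtrlStatement_T :=
  iaCtrl_T_of_free299 Fermat.Agent.S38.H681.iaFree_T_h681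

end Fermat.Agent.S38.H299
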